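import Fermat.Agent.EC.Reduction.Hom
import Mathlib.RingTheory.Ideal.Quotient.Basic
import Mathlib.Data.Nat.Choose.Basic

/-!
# The parameter at infinity

Addition of `s = x / y` modulo third powers, torsion in the kernel of reduction, and injectivity
of reduction on torsion of order a unit.
-/

set_option autoImplicit false

open WeierstrassCurve WeierstrassCurve.Affine

namespace Fermat.Agent.EC.Reduction

variable {L : Type*} [Field L] {A : ValuationSubring L}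
  {W : Affine L} {V : Affine (IsLocalRing.ResidueField A)}

/-- The parameter at infinity. -/
def sCoord : W.Point → L
  | .zero => 0
  | .some x y _ => x / y

@[simp] lemma sCoord_zero : sCoord (0 : W.Point) = 0 := rfl

@[simp] lemma sCoord_some {x y : L} (h : W.Nonsingular x y) :
    sCoord (Point.some x y h) = x / y := rfl

lemma isUnit_of_res {u : A} (h : IsLocalRing.residue A u ≠ 0) : IsUnit u :=
  IsLocalRing.residue_ne_zero_iff_isUnit u |>.mp h

/-- A homomorphic image of the chord computation modulo third powers. -/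
lemma chord_mod_cube {S : Type*} [CommRing S] {a₁ a₂ μ s₁ s₂ u v : S}
    (hμ : μ * (1 + a₁ * s₁ - a₂ * s₁ ^ 2) = s₁ ^ 2 + s₁ * s₂ + s₂ ^ 2)
    (hμ₁ : μ * s₁ = 0) (hBC : (1 + a₂ * μ) * (s₁ + s₂ + u) = a₁ * μ)
    (hμu : μ * (s₁ + s₂ + u) = 0) (hv : v * (1 + a₁ * u) = -u)
    (huu : u ^ 2 = (s₁ + s₂) ^ 2) (hvu : v * u ^ 2 = 0) :
    v = s₁ + s₂ + a₁ * s₁ * s₂ := by
  linear_combination (1 - a₁ * u) * hv - hBC + a₂ * hμu - a₁ * hμ
    + a₁ * (a₁ - a₂ * s₁) * hμ₁ + a₁ * huu + a₁ ^ 2 * hvu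

namespace ReducesTo

lemma sCoord_mem (h : ReducesTo A W V) {P : W.Point} (hP : InE1 A P) :
    sCoord P ∈ A.nonunits := by
  match P with
  | .zero => exact zero_mem _
  | .some x y hn => exact (h.infinite_coords hn.left hP).2.2.1

lemma sCoord_ne_zero (h : ReducesTo A W V) {P : W.Point} (hP : InE1 A P) (h0 : P ≠ 0) :
    sCoord P ≠ 0 := by
  match P with
  | .zero => exact absurd rfl h0
  | .some x y hn =>
    exact div_ne_zero (ne_zero_of_not_mem hP) (h.infinite_coords hn.left hP).1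

/-- Coordinates at infinity inside `A`. -/
lemma exists_st (W₀ : WeierstrassCurve A) {x y : L}
    (heq : (W₀.map A.subtype).toAffine.Equation x y) (hx : x ∉ A) :
    ∃ s t u : A, (s : L) = x / y ∧ (t : L) = y⁻¹ ∧ IsLocalRing.residue A s = 0 ∧
      IsLocalRing.residue A t = 0 ∧ IsUnit u ∧ t * u = s ^ 3 ∧
      u = 1 + W₀.a₁ * s + W₀.a₃ * t - W₀.a₂ * s ^ 2 - W₀.a₄ * s * t - W₀.a₆ * t ^ 2 := by
  obtain ⟨-, -, hs, ht, hU⟩ := (reducesTo_map A W₀).infinite_coords heq hx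
  have hs0 := res_eq_zero hs
  have ht0 := res_eq_zero ht
  lift x / y to A using ValuationSubring.nonunits_subset hs with s hsdef
  lift y⁻¹ to A using ValuationSubring.nonunits_subset ht with t htdef
  rw [res_coe] at hs0 ht0
  refine ⟨s, t, _, rfl, rfl, hs0, ht0, isUnit_of_res ?_, Subtype.ext ?_, rfl⟩
  · simp [hs0, ht0]
  · simpa [infU] using hU

lemma pow_three_mem {I : Ideal A} {s t u : A} (hu : IsUnit u) (h : t * u = s ^ 3) (hs : s ∈ I) :
    t ∈ I ^ 3 :=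
  (Ideal.mul_unit_mem_iff_mem _ hu).mp (h ▸ Ideal.pow_mem_pow hs 3)

variable [DecidableEq L]

/-- Vieta for the line through two points, with intercept `c`. -/
lemma vieta {x₁ x₂ y₁ y₂ : L} (h₁ : W.Equation x₁ y₁) (h₂ : W.Equation x₂ y₂)
    (hxy : ¬(x₁ = x₂ ∧ y₁ = W.negY x₂ y₂)) {l c X : L} (hl : l = W.slope x₁ x₂ y₁ y₂)
    (hc : c = y₁ - l * x₁) (hX : X = W.addX x₁ x₂ l) :
    x₁ + x₂ + X = l ^ 2 + W.a₁ * l - W.a₂ ∧
      x₁ * x₂ + x₁ * X + x₂ * X = W.a₄ - 2 * l * c - W.a₁ * c - W.a₃ * l ∧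
      x₁ * x₂ * X = c ^ 2 + W.a₃ * c - W.a₆ ∧
      y₂ = l * x₂ + c ∧ W.negAddY x₁ x₂ y₁ l = l * X + c := by
  have e := addPolynomial_slope h₁ h₂ hxy
  rw [addPolynomial_eq, neg_inj, Cubic.prod_X_sub_C_eq, Cubic.toPoly_injective,
    Cubic.mk.injEq, ← hl, ← hX] at e
  obtain ⟨-, e1, e2, e3⟩ := e
  have hy : y₂ = l * x₂ + c := by
    rw [hc, hl]
    by_cases hx : x₁ = x₂
    · obtain rfl := Y_eq_of_Y_ne h₁ h₂ hx fun h => hxy ⟨hx, h⟩
      subst hx; ring
    · rw [slope_of_X_ne hx]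
      field_simp [sub_ne_zero.mpr hx]
      ring
  have hy₁ : y₁ = l * x₁ + c := by rw [hc]; ring
  refine ⟨?_, ?_, ?_, hy, ?_⟩
  · linear_combination e1
  · rw [hy₁] at e2; linear_combination -e2
  · rw [hy₁] at e3; linear_combination e3
  · rw [Affine.negAddY, ← hX, hy₁]; ring

/-- The chord in the coordinates at infinity. -/
lemma exists_chord (W₀ : WeierstrassCurve A) {x₁ y₁ x₂ y₂ : L}
    (h₁ : (W₀.map A.subtype).toAffine.Equation x₁ y₁)
    (h₂ : (W₀.map A.subtype).toAffine.Equation x₂ y₂) (hx₁ : x₁ ∉ A) (hx₂ : x₂ ∉ A)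
    (hxy : ¬(x₁ = x₂ ∧ y₁ = (W₀.map A.subtype).toAffine.negY x₂ y₂))
    {s₁ s₂ t₁ t₂ : A} (es₁ : (s₁ : L) = x₁ / y₁) (et₁ : (t₁ : L) = y₁⁻¹)
    (es₂ : (s₂ : L) = x₂ / y₂) (et₂ : (t₂ : L) = y₂⁻¹)
    (rs₁ : IsLocalRing.residue A s₁ = 0) (rs₂ : IsLocalRing.residue A s₂ = 0)
    (rt₁ : IsLocalRing.residue A t₁ = 0) (rt₂ : IsLocalRing.residue A t₂ = 0)
    (I : Ideal A) (m₁ : s₁ ∈ I) (m₂ : s₂ ∈ I) (n₁ : t₁ ∈ I ^ 3) (n₂ : t₂ ∈ I ^ 3) :
    ∃ μ ν : A,
      (W₀.map A.subtype).toAffine.slope x₁ x₂ y₁ y₂ * (ν : L) = -(μ : L) ∧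
      (ν : L) * (y₁ - (W₀.map A.subtype).toAffine.slope x₁ x₂ y₁ y₂ * x₁) = 1 ∧
      IsLocalRing.residue A μ = 0 ∧ IsLocalRing.residue A ν = 0 ∧
      μ ∈ I ^ 2 ∧ ν ∈ I ^ 3 ∧
      μ * (1 + W₀.a₁ * s₁ - W₀.a₂ * s₁ ^ 2) - (s₁ ^ 2 + s₁ * s₂ + s₂ ^ 2) ∈ I ^ 3 := by
  have hy₁ := ((reducesTo_map A W₀).infinite_coords h₁ hx₁).1
  have hy₂ := ((reducesTo_map A W₀).infinite_coords h₂ hx₂).1
  have hI : I ^ 3 ≤ I ^ 2 := Ideal.pow_le_pow_right (by norm_num)
  by_cases hx : x₁ = x₂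
  · have hy : y₁ ≠ (W₀.map A.subtype).toAffine.negY x₂ y₂ := fun h => hxy ⟨hx, h⟩
    obtain rfl := Y_eq_of_Y_ne h₁ h₂ hx hy
    subst hx
    obtain rfl : s₁ = s₂ := Subtype.ext (es₁.trans es₂.symm)
    obtain rfl : t₁ = t₂ := Subtype.ext (et₁.trans et₂.symm)
    set U := 1 + W₀.a₁ * s₁ + (t₁ + t₁) * W₀.a₃ - W₀.a₂ * s₁ ^ 2
      - (t₁ + t₁) * W₀.a₄ * s₁ - (t₁ ^ 2 + t₁ ^ 2 + t₁ ^ 2) * W₀.a₆ with hU
    have hUu : IsUnit U := isUnit_of_res (by simp [hU, rs₁, rt₁])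
    obtain ⟨U', hU'⟩ := hUu.exists_left_inv
    set N := s₁ ^ 2 + s₁ ^ 2 + s₁ ^ 2 + (s₁ + s₁) * W₀.a₂ * t₁ + W₀.a₄ * t₁ ^ 2
      - W₀.a₁ * t₁ with hN
    set D := (1 + 1) + W₀.a₁ * s₁ + W₀.a₃ * t₁ with hD
    have hU'' := congr_arg (Subtype.val : A → L) hU'
    have hUne : (U : L) ≠ 0 := fun e => by simp [e] at hU''
    have hUinv : (U' : L) = (U : L)⁻¹ := eq_inv_of_mul_eq_one_left (by simpa using hU'')
    have he := (equation_iff x₁ y₁).mp h₁
    have hsl := slope_of_Y_ne (W := (W₀.map A.subtype).toAffine) (x₁ := x₁) rfl hy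
    rw [Affine.negY, ← sub_ne_zero] at hy
    rw [Affine.negY] at hsl
    simp only [map_a₁, map_a₂, map_a₃, map_a₄, map_a₆, ValuationSubring.coe_subtype] at he hy hsl
    obtain ⟨d, hd⟩ : ∃ d : L, d = y₁ - (-y₁ - W₀.a₁ * x₁ - W₀.a₃) := ⟨_, rfl⟩
    obtain ⟨num, hnum⟩ : ∃ num : L,
        num = 3 * x₁ ^ 2 + 2 * W₀.a₂ * x₁ + W₀.a₄ - W₀.a₁ * y₁ := ⟨_, rfl⟩
    have hd0 : d ≠ 0 := hd ▸ hy
    rw [← hd, ← hnum] at hsl
    have eN : (N : L) = num / y₁ ^ 2 := by
      push_cast [hN]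
      rw [es₁, et₁, hnum]
      field_simp
      ring
    have eD : (D : L) = d / y₁ := by
      push_cast [hD]
      rw [es₁, et₁, hd]
      field_simp
      ring
    have eU : (U : L) * y₁ ^ 2 = num * x₁ - d * y₁ := by
      push_cast [hU]
      rw [es₁, et₁, hd, hnum]
      field_simp
      linear_combination 3 * he
    refine ⟨N * U', -(t₁ * D * U'), ?_, ?_, by simp [hN, rs₁, rt₁], by simp [rt₁],
      Ideal.mul_mem_right _ _ ?_, neg_mem (Ideal.mul_mem_right _ _ (Ideal.mul_mem_right _ _ n₁)), ?_⟩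
    · push_cast
      rw [hsl, hUinv, eN, eD, et₁]
      field_simp
    · push_cast
      rw [hsl, hUinv, eD, et₁]
      field_simp
      linear_combination -eU
    · exact sub_mem (add_mem (add_mem (add_mem (add_mem (Ideal.pow_mem_pow m₁ 2)
        (Ideal.pow_mem_pow m₁ 2)) (Ideal.pow_mem_pow m₁ 2)) (Ideal.mul_mem_left _ _ (hI n₁)))
        (Ideal.mul_mem_left _ _ (by rw [sq t₁]; exact Ideal.mul_mem_left _ _ (hI n₁))))
        (Ideal.mul_mem_left _ _ (hI n₁))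
    · rw [← Ideal.Quotient.eq]
      have e : Ideal.Quotient.mk (I ^ 3) (N * U') * Ideal.Quotient.mk (I ^ 3) U =
          Ideal.Quotient.mk (I ^ 3) N := by rw [← map_mul, mul_assoc, hU', mul_one]
      have ht := Ideal.Quotient.eq_zero_iff_mem.mpr n₁
      simp only [hU, hN, map_add, map_sub, map_mul, map_pow, map_one, ht] at e ⊢
      linear_combination e
  · set U := 1 + W₀.a₁ * s₁ + (t₁ + t₂) * W₀.a₃ - W₀.a₂ * s₁ ^ 2
      - (t₁ + t₂) * W₀.a₄ * s₁ - (t₁ ^ 2 + t₁ * t₂ + t₂ ^ 2) * W₀.a₆ with hU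
    have hUu : IsUnit U := isUnit_of_res (by simp [hU, rs₁, rt₁, rt₂])
    obtain ⟨U', hU'⟩ := hUu.exists_left_inv
    set N := s₁ ^ 2 + s₁ * s₂ + s₂ ^ 2 + (s₁ + s₂) * W₀.a₂ * t₂ + W₀.a₄ * t₂ ^ 2
      - W₀.a₁ * t₂ with hN
    have hUN : ((t₁ : L) - t₂) * U = ((s₁ : L) - s₂) * N := by
      have e₁ := (equation_iff x₁ y₁).mp h₁
      have e₂ := (equation_iff x₂ y₂).mp h₂
      simp only [map_a₁, map_a₂, map_a₃, map_a₄, map_a₆, ValuationSubring.coe_subtype] at e₁ e₂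
      push_cast [hU, hN]
      rw [es₁, es₂, et₁, et₂]
      field_simp
      linear_combination y₂ ^ 3 * e₁ - y₁ ^ 3 * e₂
    have hU'' := congr_arg (Subtype.val : A → L) hU'
    have hUne : (U : L) ≠ 0 := fun e => by simp [e] at hU''
    have hs : (s₁ : L) - s₂ ≠ 0 := by
      intro e
      rw [e, zero_mul, mul_eq_zero, or_iff_left hUne, et₁, et₂, sub_eq_zero, inv_inj] at hUN
      refine hx ?_
      rw [sub_eq_zero, es₁, es₂, hUN, div_left_inj' hy₂] at e
      exact e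
    have hμ : ((N * U' : A) : L) = ((t₁ : L) - t₂) / ((s₁ : L) - s₂) := by
      rw [eq_div_iff hs]
      push_cast at hU'' ⊢
      linear_combination ((t₁ : L) - t₂) * hU'' - (U' : L) * hUN
    obtain ⟨d, hd⟩ : ∃ d : L, d = x₁ * y₂ - x₂ * y₁ := ⟨_, rfl⟩
    have eS : (s₁ : L) - s₂ = d / (y₁ * y₂) := by
      rw [es₁, es₂, hd]
      field_simp
    have hd0 : d ≠ 0 := fun e => hs (by rw [eS, e, zero_div])
    have eM : ((N * U' : A) : L) = (y₂ - y₁) / d := by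
      rw [hμ, eS, et₁, et₂]
      field_simp
    have := sub_ne_zero.mpr hx
    refine ⟨N * U', t₁ - N * U' * s₁, ?_, ?_, by simp [hN, rs₁, rs₂, rt₂],
      by simp [rs₁, rt₁], Ideal.mul_mem_right _ _ ?_, sub_mem n₁ ?_, ?_⟩
    · rw [show ((t₁ - N * U' * s₁ : A) : L) = (t₁ : L) - ((N * U' : A) : L) * (s₁ : L) from rfl,
        eM, slope_of_X_ne hx, es₁, et₁]
      field_simp
      linear_combination (y₁ - y₂) * hd
    · rw [show ((t₁ - N * U' * s₁ : A) : L) = (t₁ : L) - ((N * U' : A) : L) * (s₁ : L) from rfl,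
        eM, slope_of_X_ne hx, es₁, et₁]
      field_simp
      subst hd
      ring
    · exact sub_mem (add_mem (add_mem (add_mem (add_mem (Ideal.pow_mem_pow m₁ 2)
        (sq I ▸ Ideal.mul_mem_mul m₁ m₂)) (Ideal.pow_mem_pow m₂ 2))
        (Ideal.mul_mem_left _ _ (hI n₂)))
        (Ideal.mul_mem_left _ _ (by rw [sq t₂]; exact Ideal.mul_mem_left _ _ (hI n₂))))
        (Ideal.mul_mem_left _ _ (hI n₂))
    · rw [pow_succ]
      exact Ideal.mul_mem_mul (Ideal.mul_mem_right _ _ (sub_mem (add_mem (add_mem (add_mem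
        (add_mem (Ideal.pow_mem_pow m₁ 2) (sq I ▸ Ideal.mul_mem_mul m₁ m₂))
        (Ideal.pow_mem_pow m₂ 2)) (Ideal.mul_mem_left _ _ (hI n₂)))
        (Ideal.mul_mem_left _ _ (by rw [sq t₂]; exact Ideal.mul_mem_left _ _ (hI n₂))))
        (Ideal.mul_mem_left _ _ (hI n₂)))) m₁
    · rw [← Ideal.Quotient.eq]
      have e : Ideal.Quotient.mk (I ^ 3) (N * U') * Ideal.Quotient.mk (I ^ 3) U =
          Ideal.Quotient.mk (I ^ 3) N := by rw [← map_mul, mul_assoc, hU', mul_one]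
      have ht₁ := Ideal.Quotient.eq_zero_iff_mem.mpr n₁
      have ht₂ := Ideal.Quotient.eq_zero_iff_mem.mpr n₂
      simp only [hU, hN, map_add, map_sub, map_mul, map_pow, map_one, ht₁, ht₂] at e ⊢
      linear_combination e

/-- Addition of parameters at infinity modulo third powers. -/
theorem sCoord_add (W₀ : WeierstrassCurve A) {P Q : (W₀.map A.subtype).toAffine.Point}
    (hP : InE1 A P) (hQ : InE1 A Q) {s₁ s₂ : A} (e₁ : (s₁ : L) = sCoord P)
    (e₂ : (s₂ : L) = sCoord Q) (I : Ideal A) (m₁ : s₁ ∈ I) (m₂ : s₂ ∈ I) :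
    ∃ s₃ : A, (s₃ : L) = sCoord (P + Q) ∧ s₃ - (s₁ + s₂ + W₀.a₁ * s₁ * s₂) ∈ I ^ 3 := by
  match P, Q with
  | .zero, Q =>
    obtain rfl : s₁ = 0 := Subtype.ext e₁
    exact ⟨s₂, by simpa [← Point.zero_def] using e₂, by simp⟩
  | .some x y hn, .zero =>
    obtain rfl : s₂ = 0 := Subtype.ext e₂
    exact ⟨s₁, by simpa [← Point.zero_def] using e₁, by simp⟩
  | .some x₁ y₁ h₁, .some x₂ y₂ h₂ =>
    have h := reducesTo_map A W₀
    obtain ⟨s, t₁, u₁, es₁, et₁, rs₁, rt₁, hu₁, htu₁, -⟩ := exists_st W₀ h₁.left hP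
    obtain rfl : s = s₁ := Subtype.ext (es₁.trans e₁.symm)
    obtain ⟨s', t₂, u₂, es₂, et₂, rs₂, rt₂, hu₂, htu₂, -⟩ := exists_st W₀ h₂.left hQ
    obtain rfl : s' = s₂ := Subtype.ext (es₂.trans e₂.symm)
    have n₁ := pow_three_mem hu₁ htu₁ m₁
    have n₂ := pow_three_mem hu₂ htu₂ m₂
    have hy₁ := (h.infinite_coords h₁.left hP).1
    have hy₂ := (h.infinite_coords h₂.left hQ).1
    by_cases hxy : x₁ = x₂ ∧ y₁ = (W₀.map A.subtype).toAffine.negY x₂ y₂
    · rw [Point.add_of_Y_eq hxy.1 hxy.2]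
      refine ⟨0, rfl, ?_⟩
      have : (s : A) + s' + W₀.a₁ * s * s' = -(W₀.a₃ * s * t₂) := by
        apply Subtype.ext
        obtain ⟨hx, hy⟩ := hxy
        rw [Affine.negY] at hy
        simp only [map_a₁, map_a₃, ValuationSubring.coe_subtype] at hy
        push_cast
        rw [es₁, es₂, et₂, hx]
        field_simp
        linear_combination x₂ * hy
      rw [this, zero_sub, neg_neg]
      exact Ideal.mul_mem_left _ _ n₂
    rw [Point.add_some hxy]
    obtain ⟨μ, ν, hlν, hν, rμ, rν, mμ, mν, hμ⟩ :=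
      exists_chord W₀ h₁.left h₂.left hP hQ hxy es₁ et₁ es₂ et₂ rs₁ rs₂ rt₁ rt₂ I m₁ m₂ n₁ n₂
    obtain ⟨hv1, hv2, hv3, hy₂', hy₃'⟩ := vieta h₁.left h₂.left hxy rfl rfl rfl
    have hsum : InE1 A (Point.some _ _ (nonsingular_add h₁ h₂ hxy)) := by
      have := h.inE1_add (P := Point.some x₁ y₁ h₁) (Q := Point.some x₂ y₂ h₂) hP hQ
      rwa [Point.add_some hxy] at this
    obtain ⟨u, w, k, eu, ew, -, rw', hk, htw, -⟩ :=
      exists_st W₀ (equation_negAdd h₁.left h₂.left hxy) hsum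
    obtain ⟨hY0, -, hsY, -, -⟩ :=
      h.infinite_coords (equation_add h₁.left h₂.left hxy) hsum
    have hy₃0 := (h.infinite_coords (equation_negAdd h₁.left h₂.left hxy) hsum).1
    set l := (W₀.map A.subtype).toAffine.slope x₁ x₂ y₁ y₂ with hl
    set X := (W₀.map A.subtype).toAffine.addX x₁ x₂ l with hX
    set y₃ := (W₀.map A.subtype).toAffine.negAddY x₁ x₂ y₁ l with hy₃
    obtain ⟨c, hc⟩ : ∃ c, c = y₁ - l * x₁ := ⟨_, rfl⟩
    rw [← hc] at hν hv2 hv3 hy₂' hy₃'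
    have hy₁' : y₁ = l * x₁ + c := by rw [hc]; ring
    set C := 1 + W₀.a₂ * μ + W₀.a₄ * μ ^ 2 + W₀.a₆ * μ ^ 3 with hC
    set B := W₀.a₂ * ν + (μ * ν + μ * ν) * W₀.a₄
      + (μ ^ 2 * ν + μ ^ 2 * ν + μ ^ 2 * ν) * W₀.a₆ - W₀.a₁ * μ - W₀.a₃ * μ ^ 2 with hB
    have hBC : C * (s + s' + u) = -B := by
      apply Subtype.ext
      have hν0 : (ν : L) ≠ 0 := fun e => by rw [e, zero_mul] at hν; exact zero_ne_one hν
      have hμ' : (μ : L) = -(l * ν) := by rw [hlν, neg_neg]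
      have hCy : (C : L) = (ν : L) ^ 3 * (y₁ * y₂ * y₃) := by
        rw [hy₁', hy₂', hy₃']
        push_cast [hC]
        simp only [map_a₁, map_a₂, map_a₃, map_a₄, map_a₆, ValuationSubring.coe_subtype]
          at hv1 hv2 hv3
        rw [hμ']
        linear_combination -((ν : L) ^ 3 * l ^ 3) * hv3 - (ν : L) ^ 3 * l ^ 2 * c * hv2
          - (ν : L) ^ 3 * l * c ^ 2 * hv1
          + (-((ν : L) ^ 2 * c ^ 2 + ν * c + 1) + (ν : L) * W₀.a₂ * l * ((ν : L) * c + 1)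
            - (ν : L) ^ 2 * W₀.a₄ * l ^ 2) * hν
      have hBy : -(B : L) = (ν : L) ^ 3 * (x₁ * y₂ * y₃ + y₁ * x₂ * y₃ + y₁ * y₂ * X) := by
        rw [hy₁', hy₂', hy₃']
        push_cast [hB]
        simp only [map_a₁, map_a₂, map_a₃, map_a₄, map_a₆, ValuationSubring.coe_subtype]
          at hv1 hv2 hv3
        rw [hμ']
        linear_combination -(3 * (ν : L) ^ 3 * l ^ 2) * hv3 - 2 * (ν : L) ^ 3 * l * c * hv2
          - (ν : L) ^ 3 * c ^ 2 * hv1
          + ((W₀.a₂ : L) * ν * ((ν : L) * c + 1) + W₀.a₁ * l * ν * ((ν : L) * c + 1)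
            - 2 * W₀.a₄ * l * (ν : L) ^ 2 - W₀.a₃ * l ^ 2 * (ν : L) ^ 2) * hν
      push_cast
      rw [hBy, hCy, es₁, es₂, eu]
      field_simp
    have rC : IsLocalRing.residue A C ≠ 0 := by simp [hC, rμ]
    have mB : B ∈ I ^ 2 := by
      have hν2 : ν ∈ I ^ 2 := Ideal.pow_le_pow_right (by norm_num) mν
      refine sub_mem (sub_mem (add_mem (add_mem (Ideal.mul_mem_left _ _ hν2) ?_) ?_)
        (Ideal.mul_mem_left _ _ mμ)) (Ideal.mul_mem_left _ _ ?_)
      · exact Ideal.mul_mem_right _ _ (add_mem (Ideal.mul_mem_left _ _ hν2)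
          (Ideal.mul_mem_left _ _ hν2))
      · exact Ideal.mul_mem_right _ _ (add_mem (add_mem (Ideal.mul_mem_left _ _ hν2)
          (Ideal.mul_mem_left _ _ hν2)) (Ideal.mul_mem_left _ _ hν2))
      · rw [sq μ]; exact Ideal.mul_mem_left _ _ mμ
    have msum : s + s' + u ∈ I ^ 2 :=
      (Ideal.unit_mul_mem_iff_mem _ (isUnit_of_res rC)).mp (hBC ▸ neg_mem mB)
    have mu : u ∈ I := by
      have := sub_mem (Ideal.pow_le_self (by norm_num) msum) (add_mem m₁ m₂)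
      simpa using this
    have n₃ := pow_three_mem hk htw mu
    obtain ⟨v, hv⟩ : ∃ v : A, (v : L) =
        X / (W₀.map A.subtype).toAffine.addY x₁ x₂ y₁ l :=
      ⟨⟨_, ValuationSubring.nonunits_subset hsY⟩, rfl⟩
    have hvu : v * (1 + W₀.a₁ * u + W₀.a₃ * w) = -u := by
      apply Subtype.ext
      have hY : (W₀.map A.subtype).toAffine.addY x₁ x₂ y₁ l = -y₃ - W₀.a₁ * X - W₀.a₃ := rfl
      push_cast
      rw [hv, eu, ew]
      field_simp
      rw [hY]
      ring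
    refine ⟨v, by rw [sCoord_some, hv], ?_⟩
    rw [← Ideal.Quotient.eq]
    have cube {a b : A} (ha : a ∈ I ^ 2) (hb : b ∈ I) :
        Ideal.Quotient.mk (I ^ 3) a * Ideal.Quotient.mk (I ^ 3) b = 0 := by
      rw [← map_mul, Ideal.Quotient.eq_zero_iff_mem]
      exact pow_succ I 2 ▸ Ideal.mul_mem_mul ha hb
    have q₁ := cube mμ m₁
    have q₂ := cube mμ (Ideal.pow_le_self (by norm_num) msum)
    have q₃ := cube mμ (Ideal.pow_le_self (by norm_num) mμ)
    have qν := Ideal.Quotient.eq_zero_iff_mem.mpr mν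
    have qw := Ideal.Quotient.eq_zero_iff_mem.mpr n₃
    have q₄ := cube msum (sub_mem mu (add_mem m₁ m₂))
    have quu : Ideal.Quotient.mk (I ^ 3) v * Ideal.Quotient.mk (I ^ 3) u ^ 2 = 0 := by
      have hv1' : IsUnit (1 + W₀.a₁ * u + W₀.a₃ * w) := by
        refine isUnit_of_res ?_
        have : IsLocalRing.residue A u = 0 := by
          have := congr_arg (IsLocalRing.residue A) hBC
          simpa [hC, hB, rμ, rν, rs₁, rs₂] using this
        simp [this, rw']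
      have mv : v ∈ I := (Ideal.mul_unit_mem_iff_mem _ hv1').mp (hvu ▸ neg_mem mu)
      rw [← map_pow, mul_comm]
      exact cube (Ideal.pow_mem_pow mu 2) mv
    have hμq := Ideal.Quotient.eq.mpr hμ
    have hBCq := congr_arg (Ideal.Quotient.mk (I ^ 3)) hBC
    have hvuq := congr_arg (Ideal.Quotient.mk (I ^ 3)) hvu
    simp only [hC, hB, map_add, map_sub, map_mul, map_neg, map_pow, map_one, qν, qw]
      at hμq hBCq hvuq q₂ q₄ ⊢
    refine chord_mod_cube (a₂ := Ideal.Quotient.mk (I ^ 3) W₀.a₂) hμq q₁ ?_ q₂ ?_ ?_ quu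
    · linear_combination hBCq
        - (Ideal.Quotient.mk (I ^ 3) W₀.a₄ * Ideal.Quotient.mk (I ^ 3) μ
          + Ideal.Quotient.mk (I ^ 3) W₀.a₆ * Ideal.Quotient.mk (I ^ 3) μ ^ 2) * q₂
        + Ideal.Quotient.mk (I ^ 3) W₀.a₃ * q₃
    · linear_combination hvuq
    · linear_combination q₄

/-- Multiplication by `n` at infinity modulo third powers. -/
lemma sCoord_nsmul (W₀ : WeierstrassCurve A) {P : (W₀.map A.subtype).toAffine.Point}
    (hP : InE1 A P) {s : A} (e : (s : L) = sCoord P) (n : ℕ) :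
    ∃ sn : A, (sn : L) = sCoord (n • P) ∧ sn ∈ Ideal.span {s} ∧
      sn - ((n : A) * s + W₀.a₁ * (n.choose 2 : A) * s ^ 2) ∈ Ideal.span {s} ^ 3 := by
  induction n with
  | zero => exact ⟨0, by simp, zero_mem _, by simp⟩
  | succ n ih =>
    obtain ⟨sn, en, mn, hn⟩ := ih
    have hm : s ∈ Ideal.span {s} := Ideal.mem_span_singleton_self s
    have hnP : InE1 A (n • P) := (reducesTo_map A W₀).E1.nsmul_mem hP n
    obtain ⟨s₃, e₃, h₃⟩ := sCoord_add W₀ hnP hP en e _ mn hm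
    have h3 := Ideal.pow_le_self (I := Ideal.span {s}) (n := 3) (by norm_num)
    refine ⟨s₃, by rw [succ_nsmul, e₃], ?_, ?_⟩
    · have := add_mem (h3 h₃)
        (add_mem (add_mem mn hm) (Ideal.mul_mem_left _ (W₀.a₁ * sn) hm))
      simpa using this
    · have h₄ : (sn - (n : A) * s) * s ∈ Ideal.span {s} ^ 3 := by
        have h2 : sn - (n : A) * s ∈ Ideal.span {s} ^ 2 := by
          have := add_mem (Ideal.pow_le_pow_right (by norm_num : 2 ≤ 3) hn)
            (Ideal.mul_mem_left _ (W₀.a₁ * (n.choose 2 : A)) (Ideal.pow_mem_pow hm 2))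
          convert this using 1
          ring
        exact pow_succ (Ideal.span {s}) 2 ▸ Ideal.mul_mem_mul h2 hm
      have := add_mem (add_mem h₃ hn) (Ideal.mul_mem_left _ W₀.a₁ h₄)
      rw [← Ideal.Quotient.eq]
      rw [← Ideal.Quotient.eq_zero_iff_mem] at this
      rw [Nat.choose_succ_succ', Nat.choose_one_right]
      push_cast
      simp only [map_add, map_sub, map_mul, map_pow, map_one] at this ⊢
      linear_combination this

/-- The basic relation of a torsion point in the kernel of reduction. -/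
lemma exists_torsion_relation (W₀ : WeierstrassCurve A)
    {P : (W₀.map A.subtype).toAffine.Point} (hP : InE1 A P) (h0 : P ≠ 0) {n : ℕ}
    (hn : n • P = 0) :
    ∃ s r : A, (s : L) = sCoord P ∧ IsLocalRing.residue A s = 0 ∧
      (n : A) + W₀.a₁ * (n.choose 2 : A) * s + r * s ^ 2 = 0 := by
  have hs := (reducesTo_map A W₀).sCoord_mem hP
  obtain ⟨sn, en, -, h⟩ := sCoord_nsmul W₀ hP
    (s := ⟨_, ValuationSubring.nonunits_subset hs⟩) rfl n
  rw [hn] at en
  obtain rfl : sn = 0 := Subtype.ext en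
  rw [Ideal.span_singleton_pow, Ideal.mem_span_singleton] at h
  obtain ⟨r, hr⟩ := h
  refine ⟨⟨_, ValuationSubring.nonunits_subset hs⟩, r, rfl, ?_, ?_⟩
  · rw [← res_coe]; exact res_eq_zero hs
  · have hne : (⟨_, ValuationSubring.nonunits_subset hs⟩ : A) ≠ 0 := fun e =>
      (reducesTo_map A W₀).sCoord_ne_zero hP h0 (congr_arg Subtype.val e)
    refine (mul_right_inj' hne).mp ?_
    linear_combination -hr

/-- No torsion of order a unit of `A` in the kernel of reduction. -/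
lemma eq_zero_of_nsmul_eq_zero (h : ReducesTo A W V) {n : ℕ}
    (hn : A.valuation (n : L) = 1) {P : W.Point} (hP : InE1 A P) (h' : n • P = 0) : P = 0 := by
  obtain ⟨W₀, rfl, -⟩ := h
  by_contra h0
  obtain ⟨s, r, -, hs, e⟩ := exists_torsion_relation W₀ hP h0 h'
  have := congr_arg (IsLocalRing.residue A) e
  simp only [map_add, map_mul, map_pow, hs, map_zero, mul_zero, add_zero, zero_pow two_ne_zero]
    at this
  have hu : IsUnit (n : A) := (A.valuation_eq_one_iff _).mpr (by simpa using hn)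
  exact (IsLocalRing.residue_ne_zero_iff_isUnit _).mpr hu this

/-- No torsion of odd order `p` close to the origin. -/
lemma eq_zero_of_odd_nsmul (h : ReducesTo A W V) {p : ℕ} (hp : Odd p) {P : W.Point}
    (hP : InE1 A P) (hv : A.valuation (sCoord P) ^ 2 < A.valuation (p : L))
    (h' : p • P = 0) : P = 0 := by
  obtain ⟨W₀, rfl, -⟩ := h
  by_contra h0
  obtain ⟨s, r, es, hs, e⟩ := exists_torsion_relation W₀ hP h0 h'
  obtain ⟨k, rfl⟩ := hp
  have hc : (2 * k + 1).choose 2 = (2 * k + 1) * k := by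
    rw [Nat.choose_two_right, Nat.add_sub_cancel]
    rw [show (2 * k + 1) * (2 * k) = 2 * ((2 * k + 1) * k) by ring]
    exact Nat.mul_div_cancel_left _ two_pos
  rw [hc, Nat.cast_mul] at e
  have hu : IsUnit (1 + W₀.a₁ * (k : A) * s) := isUnit_of_res (by simp [hs])
  have hle : A.valuation (((2 * k + 1 : ℕ) : A) : L) ≤ A.valuation (s : L) ^ 2 := by
    have e' : ((2 * k + 1 : ℕ) : A) * (1 + W₀.a₁ * (k : A) * s) = -(r * s ^ 2) := by
      linear_combination e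
    have := congr_arg (fun a : A => A.valuation (a : L)) e'
    simp only [MulMemClass.coe_mul, map_mul, NegMemClass.coe_neg, Valuation.map_neg,
      SubmonoidClass.coe_pow, map_pow] at this
    rw [(A.valuation_eq_one_iff _).mp hu, mul_one] at this
    rw [this]
    exact mul_le_of_le_one_left zero_le (A.valuation_le_one r)
  rw [es, ← A.subtype_apply, map_natCast] at hle
  exact absurd hv (not_lt.mpr hle)

variable [DecidableEq (IsLocalRing.ResidueField A)]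

/-- Reduction is injective on torsion of order a unit of `A`. -/
lemma eq_of_redFun_eq (h : ReducesTo A W V) {n : ℕ} (hn : A.valuation (n : L) = 1)
    {P Q : W.Point} (hP : InE0 A V P) (hQ : InE0 A V Q) (hP' : n • P = 0) (hQ' : n • Q = 0)
    (he : redFun A V P = redFun A V Q) : P = Q :=
  sub_eq_zero.mp (h.eq_zero_of_nsmul_eq_zero hn (h.sub_mem_E1 hP hQ he)
    (by rw [nsmul_sub, hP', hQ', sub_zero]))

end ReducesTo

end Fermat.Agent.EC.Reduction
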