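import Fermat.Agent.EC.Reduction.Basic
import Mathlib.FieldTheory.IsAlgClosed.Basic
import Mathlib.RingTheory.Valuation.Integral

/-!
# The reduction homomorphism

The subgroup `E0` of points with nonsingular reduction, the kernel `E1` and the map `red`.
-/

set_option autoImplicit false

open WeierstrassCurve WeierstrassCurve.Affine

namespace Fermat.Agent.EC.Reduction

variable {L : Type*} [Field L] {A : ValuationSubring L}
  {W : Affine L} {V : Affine (IsLocalRing.ResidueField A)}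

variable (A) in
/-- `P` is the origin or has non-integral abscissa. -/
def InE1 : W.Point → Prop
  | .zero => True
  | .some x _ _ => x ∉ A

variable (A V) in
/-- `P` has nonsingular reduction on `V`. -/
def InE0 : W.Point → Prop
  | .zero => True
  | .some x y _ => x ∉ A ∨ V.Nonsingular (res A x) (res A y)

lemma inE1_zero : InE1 A (0 : W.Point) := trivial

lemma inE1_some {x y : L} (hP : W.Nonsingular x y) : InE1 A (Point.some x y hP) ↔ x ∉ A :=
  Iff.rfl

lemma inE0_some {x y : L} (hP : W.Nonsingular x y) :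
    InE0 A V (Point.some x y hP) ↔ x ∉ A ∨ V.Nonsingular (res A x) (res A y) :=
  Iff.rfl

lemma InE1.inE0 {P : W.Point} (h : InE1 A P) : InE0 A V P := by
  match P with
  | .zero => trivial
  | .some x y hP => exact Or.inl h

variable (A V) in
/-- The reduction of a point; the origin outside the nonsingular locus. -/
noncomputable def redFun : W.Point → V.Point := by
  classical
  exact fun P => match P with
    | .zero => 0
    | .some x y _ =>
      if h : x ∈ A ∧ V.Nonsingular (res A x) (res A y) then Point.some _ _ h.2 else 0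

@[simp] lemma redFun_zero : redFun A V (0 : W.Point) = 0 := rfl

lemma redFun_some {x y : L} (hP : W.Nonsingular x y) (hx : x ∈ A)
    (hn : V.Nonsingular (res A x) (res A y)) :
    redFun A V (Point.some x y hP) = Point.some _ _ hn :=
  dif_pos ⟨hx, hn⟩

lemma redFun_of_inE1 {P : W.Point} (h : InE1 A P) : redFun A V P = 0 := by
  match P with
  | .zero => rfl
  | .some x y hP => exact dif_neg fun e => h e.1

lemma redFun_eq_zero_iff {P : W.Point} (h : InE0 A V P) : redFun A V P = 0 ↔ InE1 A P := by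
  refine ⟨fun h0 => ?_, redFun_of_inE1⟩
  match P with
  | .zero => trivial
  | .some x y hP =>
    intro hx
    rw [redFun_some hP hx (h.resolve_left (not_not_intro hx))] at h0
    exact Point.some_ne_zero _ h0

lemma some_eq_some {K : Type*} [CommRing K] {W' : Affine K} {x x' y y' : K}
    (hP : W'.Nonsingular x y) (hQ : W'.Nonsingular x' y') (hx : x = x') (hy : y = y') :
    Point.some x y hP = Point.some x' y' hQ := by
  subst hx hy; rfl

lemma not_mem_sq_add_mul {l a c : L} (hl : l ∉ A) (ha : a ∈ A) (hc : c ∈ A) :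
    l ^ 2 + a * l - c ∉ A := by
  intro h
  apply hl
  have h0 := ne_zero_of_not_mem hl
  have e : l = (l ^ 2 + a * l - c + c) * l⁻¹ - a := by field_simp; ring
  rw [e]
  exact sub_mem (mul_mem (add_mem h hc) (inv_mem_of_not_mem hl)) ha

section slope

variable [DecidableEq L]

/-- Secant and tangent slopes at once. -/
lemma slope_mul {x₁ x₂ y₁ y₂ : L} (h₁ : W.Equation x₁ y₁) (h₂ : W.Equation x₂ y₂)
    (hxy : ¬(x₁ = x₂ ∧ y₁ = W.negY x₂ y₂)) :
    W.slope x₁ x₂ y₁ y₂ * (y₁ - W.negY x₁ y₂) =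
      x₁ ^ 2 + x₁ * x₂ + x₂ ^ 2 + W.a₂ * (x₁ + x₂) + W.a₄ - W.a₁ * y₂ := by
  by_cases hx : x₁ = x₂
  · have hy : y₁ ≠ W.negY x₂ y₂ := fun h => hxy ⟨hx, h⟩
    obtain rfl := Y_eq_of_Y_ne h₁ h₂ hx hy
    subst hx
    rw [slope_of_Y_ne rfl hy, div_mul_cancel₀ _ (sub_ne_zero.mpr hy)]
    ring
  · rw [slope_of_X_ne hx, Affine.negY]
    rw [equation_iff] at h₁ h₂
    field_simp [sub_ne_zero.mpr hx]
    linear_combination h₁ - h₂

end slope

namespace ReducesTo

lemma neg_spec (h : ReducesTo A W V) {P : W.Point} (hP : InE0 A V P) :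
    InE0 A V (-P) ∧ redFun A V (-P) = -redFun A V P := by
  match P with
  | .zero => exact ⟨trivial, rfl⟩
  | .some x y hn =>
    rw [Point.neg_some]
    by_cases hx : x ∈ A
    · have hn' := hP.resolve_left (not_not_intro hx)
      obtain ⟨-, e⟩ := h.res_negY hx (h.y_mem hn.left hx)
      have hn'' : V.Nonsingular (res A x) (res A (W.negY x y)) :=
        e ▸ (nonsingular_neg ..).mpr hn'
      refine ⟨Or.inr hn'', ?_⟩
      rw [redFun_some _ hx hn'', redFun_some hn hx hn', Point.neg_some]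
      exact some_eq_some _ _ rfl e
    · refine ⟨Or.inl hx, ?_⟩
      rw [redFun_of_inE1 (P := Point.some x y hn) hx,
        redFun_of_inE1 (P := Point.some x _ ((nonsingular_neg x y).mpr hn)) hx]
      rfl

variable [DecidableEq L]

/-- A point at infinity plus an integral point. -/
lemma exists_add_infinite (h : ReducesTo A W V) {x₁ y₁ x₂ y₂ : L} (h₁ : W.Nonsingular x₁ y₁)
    (h₂ : W.Nonsingular x₂ y₂) (hx₁ : x₁ ∉ A) (hx₂ : x₂ ∈ A) :
    ∃ x y, ∃ h₃ : W.Nonsingular x y, Point.some x₁ y₁ h₁ + Point.some x₂ y₂ h₂ = Point.some x y h₃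
      ∧ x ∈ A ∧ res A x = res A x₂ ∧ res A y = res A y₂ := by
  have hne : x₁ ≠ x₂ := fun e => hx₁ (e ▸ hx₂)
  obtain ⟨a, b, -, d⟩ := h.add_infinite_integral h₁.left h₂.left hx₁ hx₂
  exact ⟨_, _, _, Point.add_of_X_ne hne, a, b, d⟩

lemma inE1_add (h : ReducesTo A W V) {P Q : W.Point} (hP : InE1 A P) (hQ : InE1 A Q) :
    InE1 A (P + Q) := by
  match P, Q with
  | .zero, Q => simpa [← Point.zero_def] using hQ
  | .some x y hn, .zero => simpa [← Point.zero_def] using hP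
  | .some x₁ y₁ h₁, .some x₂ y₂ h₂ =>
    match hR : Point.some x₁ y₁ h₁ + Point.some x₂ y₂ h₂ with
    | .zero => trivial
    | .some x₃ y₃ h₃ =>
      intro hx₃
      have e := add_neg_cancel_right (Point.some x₁ y₁ h₁) (Point.some x₂ y₂ h₂)
      rw [hR, add_comm, Point.neg_some] at e
      obtain ⟨x, y, hn, e', hx, -⟩ :=
        h.exists_add_infinite ((nonsingular_neg x₂ y₂).mpr h₂) h₃ hQ hx₃
      rw [e'] at e
      exact hP ((Point.some.injEq ..).mp e |>.1 ▸ hx)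

variable [DecidableEq (IsLocalRing.ResidueField A)]

lemma add_spec_integral (h : ReducesTo A W V) {x₁ y₁ x₂ y₂ : L} (h₁ : W.Nonsingular x₁ y₁)
    (h₂ : W.Nonsingular x₂ y₂) (hx₁ : x₁ ∈ A) (hx₂ : x₂ ∈ A)
    (n₁ : V.Nonsingular (res A x₁) (res A y₁)) (n₂ : V.Nonsingular (res A x₂) (res A y₂)) :
    InE0 A V (Point.some x₁ y₁ h₁ + Point.some x₂ y₂ h₂) ∧
      redFun A V (Point.some x₁ y₁ h₁ + Point.some x₂ y₂ h₂) =
        Point.some _ _ n₁ + Point.some _ _ n₂ := by
  have hy₁ := h.y_mem h₁.left hx₁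
  have hy₂ := h.y_mem h₂.left hx₂
  obtain ⟨hnY, rnY⟩ := h.res_negY hx₁ hy₂
  obtain ⟨hnY₂, rnY₂⟩ := h.res_negY hx₂ hy₂
  by_cases hxy : x₁ = x₂ ∧ y₁ = W.negY x₂ y₂
  · rw [Point.add_of_Y_eq hxy.1 hxy.2,
      Point.add_of_Y_eq (congr_arg (res A) hxy.1) (by rw [hxy.2, rnY₂])]
    exact ⟨trivial, rfl⟩
  rw [Point.add_some hxy]
  set l := W.slope x₁ x₂ y₁ y₂ with hl
  -- the case of an integral slope
  have key : l ∈ A → ¬(res A x₁ = res A x₂ ∧ res A y₁ = V.negY (res A x₂) (res A y₂)) →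
      res A l = V.slope (res A x₁) (res A x₂) (res A y₁) (res A y₂) →
      InE0 A V (Point.some _ _ (nonsingular_add h₁ h₂ hxy)) ∧
        redFun A V (Point.some _ _ (nonsingular_add h₁ h₂ hxy)) =
          Point.some _ _ n₁ + Point.some _ _ n₂ := by
    intro hlA hne hrl
    obtain ⟨hX, rX⟩ := h.res_addX hx₁ hx₂ hlA
    obtain ⟨-, rY⟩ := h.res_addY hx₁ hx₂ hy₁ hlA
    rw [hrl] at rX rY
    have hn : V.Nonsingular (res A (W.addX x₁ x₂ l)) (res A (W.addY x₁ x₂ y₁ l)) := by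
      rw [rX, rY]; exact nonsingular_add n₁ n₂ hne
    refine ⟨Or.inr hn, ?_⟩
    rw [redFun_some _ hX hn, Point.add_some hne]
    exact some_eq_some _ _ rX rY
  have hNA : x₁ ^ 2 + x₁ * x₂ + x₂ ^ 2 + W.a₂ * (x₁ + x₂) + W.a₄ - W.a₁ * y₂ ∈ A :=
    sub_mem (add_mem (add_mem (add_mem (add_mem (pow_mem hx₁ 2) (mul_mem hx₁ hx₂))
      (pow_mem hx₂ 2)) (mul_mem h.a₂_mem (add_mem hx₁ hx₂))) h.a₄_mem) (mul_mem h.a₁_mem hy₂)
  have hmul := slope_mul h₁.left h₂.left hxy
  rw [← hl] at hmul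
  by_cases hxr : res A x₁ = res A x₂
  · have rN : res A (x₁ ^ 2 + x₁ * x₂ + x₂ ^ 2 + W.a₂ * (x₁ + x₂) + W.a₄ - W.a₁ * y₂) =
        3 * res A x₂ ^ 2 + 2 * V.a₂ * res A x₂ + V.a₄ - V.a₁ * res A y₂ := by
      obtain ⟨W₀, rfl, rfl⟩ := h
      clear key hnY rnY hnY₂ rnY₂ hmul hNA
      lift x₁ to A using hx₁
      lift x₂ to A using hx₂
      lift y₂ to A using hy₂
      rw [res_coe, res_coe] at hxr
      rw [show (x₁ : L) ^ 2 + x₁ * x₂ + (x₂ : L) ^ 2 + (W₀.map A.subtype).a₂ * (x₁ + x₂)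
          + (W₀.map A.subtype).a₄ - (W₀.map A.subtype).a₁ * y₂ =
          ((x₁ ^ 2 + x₁ * x₂ + x₂ ^ 2 + W₀.a₂ * (x₁ + x₂) + W₀.a₄ - W₀.a₁ * y₂ : A) : L) by simp,
        res_coe, res_coe, res_coe]
      simp [hxr]
      ring
    have hD : y₁ - W.negY x₁ y₂ ∈ A := sub_mem hy₁ hnY
    have rD : res A (y₁ - W.negY x₁ y₂) = res A y₁ - V.negY (res A x₂) (res A y₂) := by
      rw [res_sub hy₁ hnY, rnY, hxr]
    by_cases hyr : res A y₁ = V.negY (res A x₂) (res A y₂)
    · rw [Point.add_of_Y_eq hxr hyr]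
      suffices hl' : l ∉ A by
        have hX : W.addX x₁ x₂ l ∉ A := by
          have := not_mem_sq_add_mul hl' h.a₁_mem (add_mem (add_mem h.a₂_mem hx₁) hx₂)
          rwa [Affine.addX, show l ^ 2 + W.a₁ * l - W.a₂ - x₁ - x₂ =
            l ^ 2 + W.a₁ * l - (W.a₂ + x₁ + x₂) by ring]
        exact ⟨Or.inl hX, redFun_of_inE1 (P := Point.some _ _ _) hX⟩
      by_cases hy : res A y₁ = res A y₂
      · have hN0 : res A (x₁ ^ 2 + x₁ * x₂ + x₂ ^ 2 + W.a₂ * (x₁ + x₂) + W.a₄ - W.a₁ * y₂)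
            ≠ 0 := by
          rw [rN, sub_ne_zero]
          rcases ((nonsingular_iff ..).mp n₂).2 with h' | h'
          · exact Ne.symm h'
          · exact absurd (hy.symm.trans hyr) h'
        have hD0 : y₁ - W.negY x₁ y₂ ≠ 0 := fun e => hN0 (by rw [← hmul, e, mul_zero, res_zero])
        rw [eq_div_of_mul_eq hD0 hmul]
        exact div_not_mem hN0 hD hD0 (by rw [rD, hyr, sub_self])
      · have hne : x₁ ≠ x₂ := fun e =>
          hy (congr_arg (res A) (Y_eq_of_Y_ne h₁.left h₂.left e fun e' => hxy ⟨e, e'⟩))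
        rw [hl, slope_of_X_ne hne]
        exact div_not_mem (by rwa [res_sub hy₁ hy₂, sub_ne_zero]) (sub_mem hx₁ hx₂)
          (sub_ne_zero.mpr hne) (by rw [res_sub hx₁ hx₂, hxr, sub_self])
    · have hyV : res A y₁ = res A y₂ := Y_eq_of_Y_ne n₁.left n₂.left hxr hyr
      have hD0' : res A (y₁ - W.negY x₁ y₂) ≠ 0 := by rwa [rD, sub_ne_zero]
      obtain ⟨hD0, -⟩ := inv_mem_of_res_ne_zero hD hD0'
      obtain ⟨hm, hr⟩ := res_div hNA hD hD0'
      rw [← eq_div_of_mul_eq hD0 hmul] at hm hr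
      refine key hm (fun e => hyr e.2) ?_
      rw [hr, rN, rD, slope_of_Y_ne hxr hyr, hxr, hyV]
  · have hne : x₁ ≠ x₂ := fun e => hxr (congr_arg (res A) e)
    obtain ⟨hm, hr⟩ := res_div (sub_mem hy₁ hy₂) (sub_mem hx₁ hx₂)
      (by rwa [res_sub hx₁ hx₂, sub_ne_zero])
    rw [← slope_of_X_ne (W := W) hne, ← hl] at hm hr
    refine key hm (fun e => hxr e.1) ?_
    rw [hr, res_sub hy₁ hy₂, res_sub hx₁ hx₂, slope_of_X_ne hxr]

omit [DecidableEq (IsLocalRing.ResidueField A)] in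
lemma add_spec_mixed (h : ReducesTo A W V) {x₁ y₁ x₂ y₂ : L} (h₁ : W.Nonsingular x₁ y₁)
    (h₂ : W.Nonsingular x₂ y₂) (hx₁ : x₁ ∉ A) (hx₂ : x₂ ∈ A)
    (n₂ : V.Nonsingular (res A x₂) (res A y₂)) :
    InE0 A V (Point.some x₁ y₁ h₁ + Point.some x₂ y₂ h₂) ∧
      redFun A V (Point.some x₁ y₁ h₁ + Point.some x₂ y₂ h₂) = Point.some _ _ n₂ := by
  obtain ⟨x, y, hn, e, hx, rx, ry⟩ := h.exists_add_infinite h₁ h₂ hx₁ hx₂
  have n : V.Nonsingular (res A x) (res A y) := by rwa [rx, ry]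
  rw [e]
  exact ⟨Or.inr n, (redFun_some hn hx n).trans (some_eq_some _ _ rx ry)⟩

lemma add_spec (h : ReducesTo A W V) {P Q : W.Point} (hP : InE0 A V P) (hQ : InE0 A V Q) :
    InE0 A V (P + Q) ∧ redFun A V (P + Q) = redFun A V P + redFun A V Q := by
  match P, Q with
  | .zero, Q => simpa [← Point.zero_def] using hQ
  | .some x y hn, .zero => simpa [← Point.zero_def] using hP
  | .some x₁ y₁ h₁, .some x₂ y₂ h₂ =>
    by_cases hx₁ : x₁ ∈ A
    · have n₁ := hP.resolve_left (not_not_intro hx₁)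
      rw [redFun_some h₁ hx₁ n₁]
      by_cases hx₂ : x₂ ∈ A
      · rw [redFun_some h₂ hx₂ (hQ.resolve_left (not_not_intro hx₂))]
        exact h.add_spec_integral h₁ h₂ hx₁ hx₂ _ _
      · rw [redFun_of_inE1 (P := Point.some x₂ y₂ h₂) hx₂, add_zero, add_comm]
        exact h.add_spec_mixed h₂ h₁ hx₂ hx₁ n₁
    · rw [redFun_of_inE1 (P := Point.some x₁ y₁ h₁) hx₁, zero_add]
      by_cases hx₂ : x₂ ∈ A
      · rw [redFun_some h₂ hx₂ (hQ.resolve_left (not_not_intro hx₂))]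
        exact h.add_spec_mixed h₁ h₂ hx₁ hx₂ _
      · have := h.inE1_add (P := Point.some x₁ y₁ h₁) (Q := Point.some x₂ y₂ h₂) hx₁ hx₂
        exact ⟨this.inE0, by
          rw [redFun_of_inE1 (P := Point.some x₂ y₂ h₂) hx₂, redFun_of_inE1 this]⟩

/-- The subgroup of points with nonsingular reduction. -/
def E0 (h : ReducesTo A W V) : AddSubgroup W.Point where
  carrier := {P | InE0 A V P}
  zero_mem' := trivial
  add_mem' ha hb := (h.add_spec ha hb).1
  neg_mem' ha := (h.neg_spec ha).1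

omit [DecidableEq L] [DecidableEq (IsLocalRing.ResidueField A)] in
lemma neg_inE1 {P : W.Point} (hP : InE1 A P) : InE1 A (-P) := by
  match P with
  | .zero => trivial
  | .some x y hn => exact hP

/-- The kernel of reduction. -/
def E1 (h : ReducesTo A W V) : AddSubgroup W.Point where
  carrier := {P | InE1 A P}
  zero_mem' := trivial
  add_mem' ha hb := h.inE1_add ha hb
  neg_mem' ha := neg_inE1 ha

@[simp] lemma mem_E0 (h : ReducesTo A W V) {P : W.Point} : P ∈ h.E0 ↔ InE0 A V P := Iff.rfl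

omit [DecidableEq (IsLocalRing.ResidueField A)] in
@[simp] lemma mem_E1 (h : ReducesTo A W V) {P : W.Point} : P ∈ h.E1 ↔ InE1 A P := Iff.rfl

/-- The reduction homomorphism. -/
noncomputable def red (h : ReducesTo A W V) : h.E0 →+ V.Point where
  toFun P := redFun A V (P : W.Point)
  map_zero' := rfl
  map_add' P Q := (h.add_spec P.2 Q.2).2

lemma red_eq_zero_iff (h : ReducesTo A W V) (P : h.E0) :
    h.red P = 0 ↔ (P : W.Point) ∈ h.E1 :=
  redFun_eq_zero_iff P.2

lemma sub_mem_E1 (h : ReducesTo A W V) {P Q : W.Point} (hP : InE0 A V P) (hQ : InE0 A V Q)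
    (he : redFun A V P = redFun A V Q) : P - Q ∈ h.E1 := by
  have h' := h.neg_spec hQ
  rw [sub_eq_add_neg, mem_E1, ← redFun_eq_zero_iff (h.add_spec hP h'.1).1,
    (h.add_spec hP h'.1).2, h'.2, he, add_neg_cancel]

omit [DecidableEq L] [DecidableEq (IsLocalRing.ResidueField A)] in
lemma inE0_of_Δ_ne_zero (h : ReducesTo A W V) (hΔ : V.Δ ≠ 0) (P : W.Point) : InE0 A V P := by
  match P with
  | .zero => trivial
  | .some x y hn =>
    by_cases hx : x ∈ A
    · exact Or.inr ((equation_iff_nonsingular_of_Δ_ne_zero hΔ).mp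
        (h.equation_res hx (h.y_mem hn.left hx) hn.left))
    · exact Or.inl hx

end ReducesTo

end Fermat.Agent.EC.Reduction
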