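import Fermat.Agent.EC.Reduction.Formal
import Fermat.Prelude.Def_FLTPrelim_GaloisRep

/-!
# Reduction and automorphisms

Reduction commutes with automorphisms preserving the valuation subring; inertia fixes torsion of
unit order with nonsingular reduction.
-/

set_option autoImplicit false

open WeierstrassCurve WeierstrassCurve.Affine
open scoped WeierstrassCurve.Affine Pointwise

namespace Fermat.Agent.EC.Reduction

universe r s v

variable {R : Type r} {S : Type s} {L : Type v} [CommRing R] [CommRing S] [Field L]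
  [DecidableEq L] [Algebra R S] [Algebra R L] [Algebra S L] [IsScalarTower R S L]
  {W' : Affine R} {A : ValuationSubring L} {V : Affine (IsLocalRing.ResidueField A)}
  {σ : L ≃ₐ[S] L}

omit [DecidableEq L] in
lemma map_mem_iff_of_smul_eq (hσ : σ • A = A) (x : L) : σ x ∈ A ↔ x ∈ A := by
  conv_lhs => rw [← hσ]
  exact ValuationSubring.smul_mem_pointwise_smul_iff (g := σ) (S := A) (x := x)

lemma smul_some {x y : L} (h : (W'⁄L).Nonsingular x y) :
    ∃ h', σ • (Point.some x y h) = Point.some (σ x) (σ y) h' :=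
  ⟨_, rfl⟩

namespace ReducesTo

variable {φ : IsLocalRing.ResidueField A →+* IsLocalRing.ResidueField A}

omit [DecidableEq L] in
/-- The residual action fixes the reduced curve. -/
lemma map_eq_self (h : ReducesTo A (W'⁄L) V) (hφ : ∀ x ∈ A, res A (σ x) = φ (res A x)) :
    V.map φ = V := by
  have key : ∀ r : R, σ (algebraMap R L r) = algebraMap R L r := fun r => by
    rw [IsScalarTower.algebraMap_apply R S L, AlgEquiv.commutes]
  ext
  · rw [map_a₁, ← h.res_a₁, ← hφ _ h.a₁_mem, Affine.baseChange, WeierstrassCurve.baseChange, map_a₁, key]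
  · rw [map_a₂, ← h.res_a₂, ← hφ _ h.a₂_mem, Affine.baseChange, WeierstrassCurve.baseChange, map_a₂, key]
  · rw [map_a₃, ← h.res_a₃, ← hφ _ h.a₃_mem, Affine.baseChange, WeierstrassCurve.baseChange, map_a₃, key]
  · rw [map_a₄, ← h.res_a₄, ← hφ _ h.a₄_mem, Affine.baseChange, WeierstrassCurve.baseChange, map_a₄, key]
  · rw [map_a₆, ← h.res_a₆, ← hφ _ h.a₆_mem, Affine.baseChange, WeierstrassCurve.baseChange, map_a₆, key]

omit [DecidableEq L] in
lemma nonsingular_map_iff (h : ReducesTo A (W'⁄L) V)
    (hφ : ∀ x ∈ A, res A (σ x) = φ (res A x)) (c d : IsLocalRing.ResidueField A) :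
    V.Nonsingular (φ c) (φ d) ↔ V.Nonsingular c d := by
  conv_lhs => rw [← h.map_eq_self hφ]
  exact map_nonsingular _ φ.injective c d

lemma inE0_smul_iff (h : ReducesTo A (W'⁄L) V) (hσ : σ • A = A)
    (hφ : ∀ x ∈ A, res A (σ x) = φ (res A x)) {P : (W'⁄L).Point} :
    InE0 A V (σ • P) ↔ InE0 A V P := by
  match P with
  | .zero => exact Iff.rfl
  | .some x y hn =>
    obtain ⟨h', e⟩ := smul_some (σ := σ) hn
    rw [e, inE0_some, inE0_some, map_mem_iff_of_smul_eq hσ]
    by_cases hx : x ∈ A
    · rw [hφ x hx, hφ y (h.y_mem hn.left hx), h.nonsingular_map_iff hφ]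
    · simp [hx]

/-- The reduction of a conjugate of an integral point. -/
lemma redFun_smul_some (h : ReducesTo A (W'⁄L) V) (hσ : σ • A = A)
    (hφ : ∀ x ∈ A, res A (σ x) = φ (res A x)) {x y : L} {hn : (W'⁄L).Nonsingular x y}
    {c d : IsLocalRing.ResidueField A} {hcd : V.Nonsingular c d}
    (he : redFun A V (Point.some x y hn) = Point.some c d hcd) :
    redFun A V (σ • Point.some x y hn) =
      Point.some (φ c) (φ d) ((h.nonsingular_map_iff hφ c d).mpr hcd) := by
  by_cases hc : x ∈ A ∧ V.Nonsingular (res A x) (res A y)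
  · rw [redFun_some hn hc.1 hc.2, Point.some.injEq] at he
    obtain ⟨rfl, rfl⟩ := he
    obtain ⟨h', e⟩ := smul_some (σ := σ) hn
    have ex := hφ x hc.1
    have ey := hφ y (h.y_mem hn.left hc.1)
    have hn' : V.Nonsingular (res A (σ x)) (res A (σ y)) := by
      rw [ex, ey]; exact (h.nonsingular_map_iff hφ _ _).mpr hc.2
    rw [e, redFun_some h' ((map_mem_iff_of_smul_eq hσ x).mpr hc.1) hn']
    exact some_eq_some _ _ ex ey
  · exfalso
    rw [show redFun A V (Point.some x y hn) = 0 from dif_neg hc] at he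
    exact Point.some_ne_zero _ he.symm

lemma redFun_smul_zero (h : ReducesTo A (W'⁄L) V) (hσ : σ • A = A)
    (hφ : ∀ x ∈ A, res A (σ x) = φ (res A x)) {P : (W'⁄L).Point} (he : redFun A V P = 0) :
    redFun A V (σ • P) = 0 := by
  match P with
  | .zero => rfl
  | .some x y hn =>
    obtain ⟨h', e⟩ := smul_some (σ := σ) hn
    rw [e]
    refine dif_neg fun hc => ?_
    have hx := (map_mem_iff_of_smul_eq hσ x).mp hc.1
    have hn' := hc.2
    rw [hφ x hx, hφ y (h.y_mem hn.left hx), h.nonsingular_map_iff hφ] at hn'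
    rw [redFun_some hn hx hn'] at he
    exact Point.some_ne_zero _ he

lemma redFun_smul_inertia (h : ReducesTo A (W'⁄L) V) (hσ : σ • A = A)
    (hin : ∀ x ∈ A, res A (σ x) = res A x) (P : (W'⁄L).Point) :
    redFun A V (σ • P) = redFun A V P := by
  match he : redFun A V P with
  | .zero => exact h.redFun_smul_zero (φ := RingHom.id _) hσ hin he
  | .some c d hcd =>
    match P with
    | .zero => exact absurd he.symm (Point.some_ne_zero _)
    | .some x y hn => exact h.redFun_smul_some (φ := RingHom.id _) hσ hin he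

/-- Inertia fixes torsion of unit order with nonsingular reduction. -/
lemma smul_eq_self_of_inertia [DecidableEq (IsLocalRing.ResidueField A)]
    (h : ReducesTo A (W'⁄L) V) (hσ : σ • A = A)
    (hin : ∀ x ∈ A, res A (σ x) = res A x) {n : ℕ} (hn : A.valuation (n : L) = 1)
    {P : (W'⁄L).Point} (hP : InE0 A V P) (hP' : n • P = 0) : σ • P = P := by
  refine h.eq_of_redFun_eq hn ((h.inE0_smul_iff (φ := RingHom.id _) hσ hin).mpr hP) hP ?_ hP'
    (h.redFun_smul_inertia hσ hin P)
  exact ((DistribSMul.toAddMonoidHom _ σ).map_nsmul n P).symm.trans (by rw [hP', map_zero])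

end ReducesTo

end Fermat.Agent.EC.Reduction
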