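import Mathlib.AlgebraicGeometry.EllipticCurve.Affine.Point
import Mathlib.RingTheory.Valuation.ValuationSubring
import Mathlib.RingTheory.LocalRing.ResidueField.Basic
import Mathlib.Tactic.LinearCombination
import Mathlib.Tactic.FieldSimp

/-!
# Reduction of Weierstrass curves at a valuation subring

The residue map extended by zero, integral lifts of coefficients, and the chord lemmas which give
the homomorphism property of reduction.
-/

set_option autoImplicit false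

open WeierstrassCurve

namespace Fermat.Agent.EC.Reduction

variable {L : Type*} [Field L] {A : ValuationSubring L}

/-- The residue of an element of `A`, and `0` outside `A`. -/
noncomputable def res (A : ValuationSubring L) (x : L) : IsLocalRing.ResidueField A := by
  classical
  exact if h : x ∈ A then IsLocalRing.residue A ⟨x, h⟩ else 0

lemma res_of_mem {x : L} (h : x ∈ A) : res A x = IsLocalRing.residue A ⟨x, h⟩ := by
  rw [res, dif_pos h]

@[simp] lemma res_coe (a : A) : res A (a : L) = IsLocalRing.residue A a :=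
  res_of_mem a.2

lemma res_add {x y : L} (hx : x ∈ A) (hy : y ∈ A) : res A (x + y) = res A x + res A y := by
  rw [res_of_mem hx, res_of_mem hy, res_of_mem (add_mem hx hy), ← map_add]; rfl

lemma res_mul {x y : L} (hx : x ∈ A) (hy : y ∈ A) : res A (x * y) = res A x * res A y := by
  rw [res_of_mem hx, res_of_mem hy, res_of_mem (mul_mem hx hy), ← map_mul]; rfl

lemma res_sub {x y : L} (hx : x ∈ A) (hy : y ∈ A) : res A (x - y) = res A x - res A y := by
  rw [res_of_mem hx, res_of_mem hy, res_of_mem (sub_mem hx hy), ← map_sub]; rfl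

lemma res_neg {x : L} (hx : x ∈ A) : res A (-x) = -res A x := by
  rw [res_of_mem hx, res_of_mem (neg_mem hx), ← map_neg]; rfl

@[simp] lemma res_zero : res A (0 : L) = 0 := by
  rw [res_of_mem (zero_mem A)]; exact map_zero _

@[simp] lemma res_one : res A (1 : L) = 1 := by
  rw [res_of_mem (one_mem A)]; exact map_one _

lemma res_pow {x : L} (hx : x ∈ A) (n : ℕ) : res A (x ^ n) = res A x ^ n := by
  rw [res_of_mem hx, res_of_mem (pow_mem hx n), ← map_pow]; rfl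

lemma res_eq_zero_iff {x : L} (hx : x ∈ A) : res A x = 0 ↔ x ∈ A.nonunits := by
  rw [res_of_mem hx, IsLocalRing.residue_eq_zero_iff, ← ValuationSubring.coe_mem_nonunits_iff]

lemma res_eq_zero {x : L} (hx : x ∈ A.nonunits) : res A x = 0 :=
  (res_eq_zero_iff (ValuationSubring.nonunits_subset hx)).mpr hx

lemma inv_mem_nonunits {x : L} (hx : x ∉ A) : x⁻¹ ∈ A.nonunits :=
  A.inv_mem_nonunits_iff.mpr (Or.inr hx)

lemma inv_mem_of_not_mem {x : L} (hx : x ∉ A) : x⁻¹ ∈ A :=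
  ValuationSubring.nonunits_subset (inv_mem_nonunits hx)

lemma ne_zero_of_not_mem {x : L} (hx : x ∉ A) : x ≠ 0 :=
  fun h => hx (h ▸ zero_mem A)

/-- An element of `A` with nonzero residue is invertible in `A`. -/
lemma inv_mem_of_res_ne_zero {x : L} (_hx : x ∈ A) (h : res A x ≠ 0) :
    x ≠ 0 ∧ x⁻¹ ∈ A := by
  have h0 : x ≠ 0 := fun hx0 => h (hx0 ▸ res_zero)
  refine ⟨h0, ?_⟩
  by_contra hc
  exact h (res_eq_zero (inv_inv x ▸ inv_mem_nonunits hc))

lemma res_inv {x : L} (hx : x ∈ A) (h : res A x ≠ 0) : res A x⁻¹ = (res A x)⁻¹ := by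
  obtain ⟨h0, hi⟩ := inv_mem_of_res_ne_zero hx h
  exact eq_inv_of_mul_eq_one_left (by rw [← res_mul hi hx, inv_mul_cancel₀ h0, res_one])

lemma res_div {x y : L} (hx : x ∈ A) (hy : y ∈ A) (h : res A y ≠ 0) :
    x / y ∈ A ∧ res A (x / y) = res A x / res A y := by
  obtain ⟨-, hi⟩ := inv_mem_of_res_ne_zero hy h
  exact ⟨by rw [div_eq_mul_inv]; exact mul_mem hx hi,
    by rw [div_eq_mul_inv, res_mul hx hi, res_inv hy h, div_eq_mul_inv]⟩

/-- A quotient of an element with nonzero residue by one with zero residue is not integral. -/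
lemma div_not_mem {x y : L} (hx : res A x ≠ 0) (hy : y ∈ A) (hy0 : y ≠ 0) (hy' : res A y = 0) :
    x / y ∉ A := by
  intro hmem
  apply hx
  rw [← div_mul_cancel₀ x hy0, res_mul hmem hy, hy', mul_zero]

variable (A) in
/-- `W` has coefficients in `A`, and reduces to `V`. -/
def ReducesTo (W : Affine L) (V : Affine (IsLocalRing.ResidueField A)) : Prop :=
  ∃ W₀ : WeierstrassCurve A, W₀.map A.subtype = W ∧ W₀.map (IsLocalRing.residue A) = V

variable (A) in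
lemma reducesTo_map (W₀ : WeierstrassCurve A) :
    ReducesTo A (W₀.map A.subtype) (W₀.map (IsLocalRing.residue A)) :=
  ⟨W₀, rfl, rfl⟩

/-- `s`-coordinate identity at infinity: the cofactor `U` in `t U = s ^ 3`. -/
def infU (W : Affine L) (s t : L) : L :=
  1 + W.a₁ * s + W.a₃ * t - W.a₂ * s ^ 2 - W.a₄ * s * t - W.a₆ * t ^ 2

namespace ReducesTo

variable {W : Affine L} {V : Affine (IsLocalRing.ResidueField A)}

lemma a₁_mem (h : ReducesTo A W V) : W.a₁ ∈ A := by obtain ⟨W₀, rfl, -⟩ := h; exact W₀.a₁.2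
lemma a₂_mem (h : ReducesTo A W V) : W.a₂ ∈ A := by obtain ⟨W₀, rfl, -⟩ := h; exact W₀.a₂.2
lemma a₃_mem (h : ReducesTo A W V) : W.a₃ ∈ A := by obtain ⟨W₀, rfl, -⟩ := h; exact W₀.a₃.2
lemma a₄_mem (h : ReducesTo A W V) : W.a₄ ∈ A := by obtain ⟨W₀, rfl, -⟩ := h; exact W₀.a₄.2
lemma a₆_mem (h : ReducesTo A W V) : W.a₆ ∈ A := by obtain ⟨W₀, rfl, -⟩ := h; exact W₀.a₆.2

lemma res_a₁ (h : ReducesTo A W V) : res A W.a₁ = V.a₁ := by
  obtain ⟨W₀, rfl, rfl⟩ := h; exact res_coe W₀.a₁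
lemma res_a₂ (h : ReducesTo A W V) : res A W.a₂ = V.a₂ := by
  obtain ⟨W₀, rfl, rfl⟩ := h; exact res_coe W₀.a₂
lemma res_a₃ (h : ReducesTo A W V) : res A W.a₃ = V.a₃ := by
  obtain ⟨W₀, rfl, rfl⟩ := h; exact res_coe W₀.a₃
lemma res_a₄ (h : ReducesTo A W V) : res A W.a₄ = V.a₄ := by
  obtain ⟨W₀, rfl, rfl⟩ := h; exact res_coe W₀.a₄
lemma res_a₆ (h : ReducesTo A W V) : res A W.a₆ = V.a₆ := by
  obtain ⟨W₀, rfl, rfl⟩ := h; exact res_coe W₀.a₆

/-- A point of the reduced curve below an integral point. -/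
lemma equation_res (h : ReducesTo A W V) {x y : L} (hx : x ∈ A) (hy : y ∈ A)
    (heq : W.Equation x y) : V.Equation (res A x) (res A y) := by
  obtain ⟨W₀, rfl, rfl⟩ := h
  lift x to A using hx
  lift y to A using hy
  rw [res_coe, res_coe]
  exact Affine.Equation.map _
    ((W₀.toAffine.map_equation (f := A.subtype) A.subtype_injective x y).mp heq)

lemma res_negY (h : ReducesTo A W V) {x y : L} (hx : x ∈ A) (hy : y ∈ A) :
    W.negY x y ∈ A ∧ res A (W.negY x y) = V.negY (res A x) (res A y) := by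
  obtain ⟨W₀, rfl, rfl⟩ := h
  lift x to A using hx
  lift y to A using hy
  have e : (W₀.map A.subtype).toAffine.negY (x : L) (y : L) = A.subtype (W₀.toAffine.negY x y) :=
    Affine.map_negY A.subtype x y
  refine ⟨e ▸ SetLike.coe_mem _, ?_⟩
  rw [e, res_coe, res_coe]
  exact (res_coe _).trans (Affine.map_negY (IsLocalRing.residue A) x y).symm

lemma res_addX (h : ReducesTo A W V) {x₁ x₂ l : L} (hx₁ : x₁ ∈ A) (hx₂ : x₂ ∈ A)
    (hl : l ∈ A) :
    W.addX x₁ x₂ l ∈ A ∧ res A (W.addX x₁ x₂ l) = V.addX (res A x₁) (res A x₂) (res A l) := by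
  obtain ⟨W₀, rfl, rfl⟩ := h
  lift x₁ to A using hx₁
  lift x₂ to A using hx₂
  lift l to A using hl
  have e : (W₀.map A.subtype).toAffine.addX (x₁ : L) (x₂ : L) (l : L) =
      A.subtype (W₀.toAffine.addX x₁ x₂ l) := Affine.map_addX A.subtype x₁ x₂ l
  refine ⟨e ▸ SetLike.coe_mem _, ?_⟩
  rw [e, res_coe, res_coe, res_coe]
  exact (res_coe _).trans (Affine.map_addX (IsLocalRing.residue A) x₁ x₂ l).symm

lemma res_addY (h : ReducesTo A W V) {x₁ x₂ y₁ l : L} (hx₁ : x₁ ∈ A) (hx₂ : x₂ ∈ A)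
    (hy₁ : y₁ ∈ A) (hl : l ∈ A) :
    W.addY x₁ x₂ y₁ l ∈ A ∧
      res A (W.addY x₁ x₂ y₁ l) = V.addY (res A x₁) (res A x₂) (res A y₁) (res A l) := by
  obtain ⟨W₀, rfl, rfl⟩ := h
  lift x₁ to A using hx₁
  lift x₂ to A using hx₂
  lift y₁ to A using hy₁
  lift l to A using hl
  have e : (W₀.map A.subtype).toAffine.addY (x₁ : L) (x₂ : L) (y₁ : L) (l : L) =
      A.subtype (W₀.toAffine.addY x₁ x₂ y₁ l) := Affine.map_addY A.subtype x₁ y₁ x₂ l
  refine ⟨e ▸ SetLike.coe_mem _, ?_⟩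
  rw [e, res_coe, res_coe, res_coe, res_coe]
  exact (res_coe _).trans (Affine.map_addY (IsLocalRing.residue A) x₁ y₁ x₂ l).symm

/-- An integral abscissa forces an integral ordinate. -/
lemma y_mem (h : ReducesTo A W V) {x y : L} (heq : W.Equation x y) (hx : x ∈ A) : y ∈ A := by
  by_contra hy
  refine hy ?_
  have hy0 := ne_zero_of_not_mem hy
  have e : y = (x ^ 3 + W.a₂ * x ^ 2 + W.a₄ * x + W.a₆) * y⁻¹ - W.a₁ * x - W.a₃ := by
    rw [← (Affine.equation_iff x y).mp heq]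
    field_simp
    ring
  rw [e]
  exact sub_mem (sub_mem (mul_mem (add_mem (add_mem (add_mem (pow_mem hx 3)
    (mul_mem h.a₂_mem (pow_mem hx 2))) (mul_mem h.a₄_mem hx)) h.a₆_mem) (inv_mem_of_not_mem hy))
    (mul_mem h.a₁_mem hx)) h.a₃_mem

/-- Coordinates at infinity. -/
lemma infinite_coords (h : ReducesTo A W V) {x y : L} (heq : W.Equation x y) (hx : x ∉ A) :
    y ≠ 0 ∧ y ∉ A ∧ x / y ∈ A.nonunits ∧ y⁻¹ ∈ A.nonunits ∧
      y⁻¹ * infU W (x / y) y⁻¹ = (x / y) ^ 3 := by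
  have hx0 := ne_zero_of_not_mem hx
  have hxi := inv_mem_of_not_mem hx
  have hyx : y / x ∉ A := by
    intro hm
    apply hx
    have e : x = (y / x) ^ 2 + W.a₁ * (y / x) + W.a₃ * (y / x) * x⁻¹ - W.a₂ - W.a₄ * x⁻¹
        - W.a₆ * x⁻¹ ^ 2 := by
      have h' := (Affine.equation_iff x y).mp heq
      field_simp
      linear_combination -h'
    rw [e]
    exact sub_mem (sub_mem (sub_mem (add_mem (add_mem (pow_mem hm 2) (mul_mem h.a₁_mem hm))
      (mul_mem (mul_mem h.a₃_mem hm) hxi)) h.a₂_mem) (mul_mem h.a₄_mem hxi))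
      (mul_mem h.a₆_mem (pow_mem hxi 2))
  have hy : y ∉ A := fun hy => hyx (by rw [div_eq_mul_inv]; exact mul_mem hy hxi)
  have hy0 := ne_zero_of_not_mem hy
  refine ⟨hy0, hy, ?_, inv_mem_nonunits hy, ?_⟩
  · rw [← inv_div]
    exact inv_mem_nonunits hyx
  · have h' := (Affine.equation_iff x y).mp heq
    unfold infU
    field_simp
    linear_combination h'

lemma res_infU (h : ReducesTo A W V) {s t : L} (hs : s ∈ A.nonunits) (ht : t ∈ A.nonunits) :
    infU W s t ∈ A ∧ res A (infU W s t) = 1 := by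
  obtain ⟨hs', hs0⟩ := (⟨ValuationSubring.nonunits_subset hs, res_eq_zero hs⟩ :
    s ∈ A ∧ res A s = 0)
  obtain ⟨ht', ht0⟩ := (⟨ValuationSubring.nonunits_subset ht, res_eq_zero ht⟩ :
    t ∈ A ∧ res A t = 0)
  obtain ⟨W₀, rfl, rfl⟩ := h
  lift s to A using hs'
  lift t to A using ht'
  rw [res_coe] at hs0 ht0
  have e : infU (W₀.map A.subtype).toAffine (s : L) (t : L) =
      ((1 + W₀.a₁ * s + W₀.a₃ * t - W₀.a₂ * s ^ 2 - W₀.a₄ * s * t - W₀.a₆ * t ^ 2 : A) : L) := by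
    simp [infU]
  rw [e]
  refine ⟨SetLike.coe_mem _, ?_⟩
  rw [res_coe]
  simp [hs0, ht0]

/-- The chord through a point at infinity and an integral point: in terms of the slope `l`. -/
lemma res_slope_infinite (h : ReducesTo A W V) {x₁ y₁ x₂ y₂ : L} (h₁ : W.Equation x₁ y₁)
    (hx₁ : x₁ ∉ A) (hx₂ : x₂ ∈ A) (hy₂ : y₂ ∈ A) :
    let l := (y₁ - y₂) / (x₁ - x₂)
    l ^ 2 / x₁ ∈ A ∧ res A (l ^ 2 / x₁) = 1 ∧ l / x₁ ∈ A ∧ res A (l / x₁) = 0 := by
  obtain ⟨hy0, -, hs, ht, hU⟩ := h.infinite_coords h₁ hx₁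
  intro l
  have hx0 := ne_zero_of_not_mem hx₁
  have hxi := inv_mem_of_not_mem hx₁
  have hxi0 : res A x₁⁻¹ = 0 := res_eq_zero (inv_mem_nonunits hx₁)
  have hsA := ValuationSubring.nonunits_subset hs
  have htA := ValuationSubring.nonunits_subset ht
  obtain ⟨hUm, hU1⟩ := h.res_infU hs ht
  obtain ⟨hU0, hUi⟩ := inv_mem_of_res_ne_zero hUm (by rw [hU1]; exact one_ne_zero)
  set s := x₁ / y₁ with hs_def
  set t := y₁⁻¹ with ht_def
  have hnum : (1 - t * y₂) ∈ A ∧ res A (1 - t * y₂) = 1 :=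
    ⟨sub_mem (one_mem A) (mul_mem htA hy₂), by
      rw [res_sub (one_mem A) (mul_mem htA hy₂), res_mul htA hy₂, res_eq_zero ht, res_one,
        zero_mul, sub_zero]⟩
  have hden : (1 - x₂ * x₁⁻¹) ∈ A ∧ res A (1 - x₂ * x₁⁻¹) = 1 :=
    ⟨sub_mem (one_mem A) (mul_mem hx₂ hxi), by
      rw [res_sub (one_mem A) (mul_mem hx₂ hxi), res_mul hx₂ hxi, hxi0, res_one,
        mul_zero, sub_zero]⟩
  obtain ⟨hq, hq1⟩ := res_div hnum.1 hden.1 (by rw [hden.2]; exact one_ne_zero)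
  rw [hnum.2, hden.2, div_one] at hq1
  set q := (1 - t * y₂) / (1 - x₂ * x₁⁻¹) with hq_def
  have hsx : s ≠ 0 := div_ne_zero hx0 hy0
  have hx12 : x₁ - x₂ ≠ 0 := sub_ne_zero.mpr fun e => hx₁ (e ▸ hx₂)
  have hl : l = q / s := by
    have hd : 1 - x₂ * x₁⁻¹ ≠ 0 := fun e => by
      have := hden.2; rw [e, res_zero] at this; exact zero_ne_one this
    simp only [l, hq_def, hs_def, ht_def]
    field_simp
  have hts : t = s ^ 3 * (infU W s t)⁻¹ := by
    rw [← hU, mul_assoc, mul_inv_cancel₀ hU0, mul_one]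
  have hx_eq : x₁⁻¹ = s ^ 2 * (infU W s t)⁻¹ := by
    have : x₁⁻¹ = t / s := by simp only [hs_def, ht_def]; field_simp
    rw [this]
    nth_rw 1 [hts]
    field_simp
  have e2 : l ^ 2 / x₁ = q ^ 2 * (infU W s t)⁻¹ := by
    rw [div_eq_mul_inv, hx_eq, hl]
    field_simp
  have e1 : l / x₁ = q * s * (infU W s t)⁻¹ := by
    rw [div_eq_mul_inv, hx_eq, hl]
    field_simp
  refine ⟨e2 ▸ mul_mem (pow_mem hq 2) hUi, ?_, e1 ▸ mul_mem (mul_mem hq hsA) hUi, ?_⟩
  · rw [e2, res_mul (pow_mem hq 2) hUi, res_pow hq,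
      res_inv hUm (by rw [hU1]; exact one_ne_zero), hq1, hU1]
    simp
  · rw [e1, res_mul (mul_mem hq hsA) hUi, res_mul hq hsA, res_eq_zero hs, mul_zero, zero_mul]

/-- Adding a point at infinity to an integral point does not change the reduction. -/
lemma add_infinite_integral [DecidableEq L] (h : ReducesTo A W V) {x₁ y₁ x₂ y₂ : L}
    (h₁ : W.Equation x₁ y₁) (h₂ : W.Equation x₂ y₂) (hx₁ : x₁ ∉ A) (hx₂ : x₂ ∈ A) :
    let l := W.slope x₁ x₂ y₁ y₂
    W.addX x₁ x₂ l ∈ A ∧ res A (W.addX x₁ x₂ l) = res A x₂ ∧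
      W.addY x₁ x₂ y₁ l ∈ A ∧ res A (W.addY x₁ x₂ y₁ l) = res A y₂ := by
  have hy₂ := h.y_mem h₂ hx₂
  have hne : x₁ ≠ x₂ := fun e => hx₁ (e ▸ hx₂)
  intro l
  have hl : l = (y₁ - y₂) / (x₁ - x₂) := Affine.slope_of_X_ne hne
  obtain ⟨hw, hw1, hu, hu0⟩ := h.res_slope_infinite h₁ hx₁ hx₂ hy₂
  rw [← hl] at hw hw1 hu hu0
  have hd : x₁ - x₂ ≠ 0 := sub_ne_zero.mpr hne
  have hy₁ : y₁ = l * (x₁ - x₂) + y₂ := by rw [hl, div_mul_cancel₀ _ hd]; ring
  have hB : l ^ 2 * (x₁ - x₂) + 2 * l * y₂ + W.a₁ * l * x₁ + W.a₁ * y₂ + W.a₃ * l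
      - (x₁ ^ 2 + x₁ * x₂ + x₂ ^ 2 + W.a₂ * (x₁ + x₂) + W.a₄) = 0 := by
    have e₁ := (Affine.equation_iff x₁ y₁).mp h₁
    have e₂ := (Affine.equation_iff x₂ y₂).mp h₂
    rw [hy₁] at e₁
    refine (mul_right_inj' hd).mp ?_
    linear_combination e₁ - e₂
  have hx0 := ne_zero_of_not_mem hx₁
  have hr := inv_mem_of_not_mem hx₁
  have hr0 : res A x₁⁻¹ = 0 := res_eq_zero (inv_mem_nonunits hx₁)
  set X := W.addX x₁ x₂ l with hXdef
  set num := (x₂ + x₂) * (l ^ 2 / x₁) + (W.a₁ * x₂ - (y₂ + y₂) - W.a₃) * (l / x₁)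
    + (W.a₄ - W.a₁ * y₂) * x₁⁻¹ - x₂ with hnum
  have hden : (1 + x₂ * x₁⁻¹) ∈ A ∧ res A (1 + x₂ * x₁⁻¹) = 1 :=
    ⟨add_mem (one_mem A) (mul_mem hx₂ hr), by
      rw [res_add (one_mem A) (mul_mem hx₂ hr), res_mul hx₂ hr, hr0, res_one, mul_zero, add_zero]⟩
  have hden0 : 1 + x₂ * x₁⁻¹ ≠ 0 := fun e => by
    have := hden.2; rw [e, res_zero] at this; exact zero_ne_one this
  have eX : X = num / (1 + x₂ * x₁⁻¹) := by
    rw [eq_div_iff hden0, hnum, hXdef, Affine.addX]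
    field_simp
    linear_combination hB
  have hnumA : num ∈ A ∧ res A num = res A x₂ := by
    obtain ⟨W₀, rfl, rfl⟩ := h
    rw [hnum]
    lift x₂ to A using hx₂
    lift y₂ to A using hy₂
    generalize hw' : l ^ 2 / x₁ = w at hw hw1 ⊢
    generalize hu' : l / x₁ = u at hu hu0 ⊢
    generalize hr' : x₁⁻¹ = r at hr hr0 ⊢
    lift w to A using hw
    lift u to A using hu
    lift r to A using hr
    rw [res_coe] at hw1 hu0 hr0
    have e : ((x₂ : L) + x₂) * w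
        + ((W₀.map A.subtype).a₁ * x₂ - (y₂ + y₂) - (W₀.map A.subtype).a₃) * u
        + ((W₀.map A.subtype).a₄ - (W₀.map A.subtype).a₁ * y₂) * r - x₂ =
        (((x₂ + x₂) * w + (W₀.a₁ * x₂ - (y₂ + y₂) - W₀.a₃) * u
          + (W₀.a₄ - W₀.a₁ * y₂) * r - x₂ : A) : L) := by
      simp
    rw [e, res_coe, res_coe]
    refine ⟨SetLike.coe_mem _, ?_⟩
    simp [hw1, hu0, hr0]
  have hX : X ∈ A ∧ res A X = res A x₂ := by
    obtain ⟨m, r⟩ := res_div hnumA.1 hden.1 (by rw [hden.2]; exact one_ne_zero)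
    rw [eX]
    exact ⟨m, by rw [r, hnumA.2, hden.2, div_one]⟩
  -- the ordinate
  set Q := (X + x₂ + W.a₂) * (l / x₁) - W.a₁ * (l ^ 2 / x₁) with hQ
  set P := ((x₂ + x₂) * Q + (W.a₁ * x₂ - (y₂ + y₂) - W.a₃) * (l ^ 2 / x₁)
    + (W.a₄ - W.a₁ * y₂ - x₂ ^ 2) * (l / x₁)) / (1 + x₂ * x₁⁻¹) with hP
  have eY : W.addY x₁ x₂ y₁ l = W.negY X (P + y₂) := by
    have : W.negAddY x₁ x₂ y₁ l = P + y₂ := by
      rw [Affine.negAddY, ← hXdef, hy₁]
      have : l * (X - x₂) = P := by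
        rw [hP, eq_div_iff hden0, hQ, hXdef, Affine.addX]
        field_simp
        linear_combination l * hB
      linear_combination this
    rw [Affine.addY, this]
  have hPA : P ∈ A ∧ res A P = -(2 * res A y₂ + V.a₁ * res A x₂ + V.a₃) := by
    clear_value X
    obtain ⟨W₀, rfl, rfl⟩ := h
    obtain ⟨hXm, hX2⟩ := hX
    rw [hP, hQ]
    lift x₂ to A using hx₂
    lift y₂ to A using hy₂
    lift X to A using hXm
    generalize hw' : l ^ 2 / x₁ = w at hw hw1 ⊢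
    generalize hu' : l / x₁ = u at hu hu0 ⊢
    generalize hr' : x₁⁻¹ = r at hr hr0 hden ⊢
    lift w to A using hw
    lift u to A using hu
    rw [res_coe] at hw1 hu0
    rw [res_coe, res_coe] at hX2
    have e : ((x₂ : L) + x₂) * (((X : L) + x₂ + (W₀.map A.subtype).a₂) * u
          - (W₀.map A.subtype).a₁ * w)
        + ((W₀.map A.subtype).a₁ * x₂ - (y₂ + y₂) - (W₀.map A.subtype).a₃) * w
        + ((W₀.map A.subtype).a₄ - (W₀.map A.subtype).a₁ * y₂ - (x₂ : L) ^ 2) * u =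
        (((x₂ + x₂) * ((X + x₂ + W₀.a₂) * u - W₀.a₁ * w)
          + (W₀.a₁ * x₂ - (y₂ + y₂) - W₀.a₃) * w
          + (W₀.a₄ - W₀.a₁ * y₂ - x₂ ^ 2) * u : A) : L) := by
      simp
    rw [e, res_coe, res_coe]
    obtain ⟨m, r⟩ := res_div (SetLike.coe_mem _) hden.1 (by rw [hden.2]; exact one_ne_zero)
    refine ⟨m, ?_⟩
    rw [r, res_coe, hden.2]
    simp [hw1, hu0]
    ring
  obtain ⟨hYm, hY⟩ := h.res_negY hX.1 (add_mem hPA.1 hy₂)
  refine ⟨hX.1, hX.2, eY ▸ hYm, ?_⟩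
  rw [eY, hY, res_add hPA.1 hy₂, hPA.2, hX.2, Affine.negY]
  ring

end ReducesTo

end Fermat.Agent.EC.Reduction
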